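import Mathlib
import Fermat.Agent.S56.Defs

/-!
# S56 / LOC-SO, sub-leaf KUMMER-P (helper786), part 2: Hilbert 90 for `μ_p`-valued cocycles

`D` any subgroup of `G_ℚ`, `ζ` a primitive `p`-th root of unity, `f : G_ℚ → ZMod p` a twisted
cocycle on `D` (`f(στ) = f(σ) + ω(σ) f(τ)`) of finite level.  Then there is `β ≠ 0` in `ℚ̄` with
`σ β = ζ ^ f(σ) · β` for all `σ ∈ D` (`hilbert90`).  Proof: Poincaré series on a finite normal
level, Dedekind independence of characters.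
-/

set_option autoImplicit false
set_option linter.style.haveILetI false

namespace Fermat.Agent.S56.H786

open Fermat.Agent.S56

section Zp

variable {p : ℕ}

/-- `ζ ^ n` for `n : ZMod p`. -/
noncomputable def zp (ζ : Qb) (n : ZMod p) : Qb := ζ ^ n.val

theorem zp_natCast [NeZero p] {ζ : Qb} (h1 : ζ ^ p = 1) (k : ℕ) :
    zp ζ (k : ZMod p) = ζ ^ k := by
  unfold zp
  rw [ZMod.val_natCast]
  exact (pow_eq_pow_mod k h1).symm

theorem zp_add [NeZero p] {ζ : Qb} (h1 : ζ ^ p = 1) (m n : ZMod p) :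
    zp ζ (m + n) = zp ζ m * zp ζ n := by
  conv_lhs => rw [← ZMod.natCast_zmod_val m, ← ZMod.natCast_zmod_val n, ← Nat.cast_add]
  rw [zp_natCast h1, pow_add]
  rfl

theorem zp_natCast_mul [NeZero p] {ζ : Qb} (h1 : ζ ^ p = 1) (a : ℕ) (n : ZMod p) :
    zp ζ ((a : ZMod p) * n) = zp ζ n ^ a := by
  conv_lhs => rw [← ZMod.natCast_zmod_val n, ← Nat.cast_mul]
  rw [zp_natCast h1, mul_comm, pow_mul]
  rfl

theorem zp_zero [NeZero p] (ζ : Qb) : zp ζ (0 : ZMod p) = 1 := by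
  unfold zp
  rw [ZMod.val_zero, pow_zero]

theorem zp_ne_zero {ζ : Qb} (h0 : ζ ≠ 0) (n : ZMod p) : zp ζ n ≠ 0 :=
  pow_ne_zero _ h0

theorem zp_pow_self {ζ : Qb} (h1 : ζ ^ p = 1) (n : ZMod p) : zp ζ n ^ p = 1 := by
  unfold zp
  rw [← pow_mul, mul_comm, pow_mul, h1, one_pow]

theorem zp_neg_mul_self [NeZero p] {ζ : Qb} (h1 : ζ ^ p = 1) (n : ZMod p) :
    zp ζ (-n) * zp ζ n = 1 := by
  rw [← zp_add h1, neg_add_cancel, zp_zero]

theorem zp_injective [NeZero p] {ζ : Qb} (hζ : IsPrimitiveRoot ζ p) :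
    Function.Injective (zp (p := p) ζ) := by
  intro m n h
  have := hζ.pow_inj (ZMod.val_lt m) (ZMod.val_lt n) h
  exact ZMod.val_injective p this

theorem exists_zp_eq [NeZero p] {ζ : Qb} (hζ : IsPrimitiveRoot ζ p) {ξ : Qb} (hξ : ξ ^ p = 1) :
    ∃ n : ZMod p, ξ = zp ζ n := by
  obtain ⟨i, -, hi⟩ := hζ.eq_pow_of_pow_eq_one hξ
  exact ⟨(i : ZMod p), by rw [zp_natCast hζ.pow_eq_one, hi]⟩

theorem apply_zp [NeZero p] {ζ : Qb} (h1 : ζ ^ p = 1) {σ : GQ} {a : ℕ} (hσ : IsCycExp p σ a)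
    (n : ZMod p) : σ (zp ζ n) = zp ζ ((a : ZMod p) * n) := by
  rw [zp_natCast_mul h1]
  exact hσ _ (zp_pow_self h1 n)

/-- Every element of `G_ℚ` has a cyclotomic exponent. -/
theorem exists_isCycExp [NeZero p] {ζ : Qb} (hζ : IsPrimitiveRoot ζ p) (σ : GQ) :
    ∃ a : ℕ, IsCycExp p σ a := by
  have h1 : (σ ζ) ^ p = 1 := by rw [← map_pow, hζ.pow_eq_one, map_one]
  obtain ⟨a, -, ha⟩ := hζ.eq_pow_of_pow_eq_one h1
  refine ⟨a, fun μ hμ => ?_⟩
  obtain ⟨j, -, hj⟩ := hζ.eq_pow_of_pow_eq_one hμ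
  rw [← hj, map_pow, ← ha, ← pow_mul, ← pow_mul, mul_comm]

/-- Two cyclotomic exponents of the same element agree modulo `p`. -/
theorem isCycExp_unique [NeZero p] {ζ : Qb} (hζ : IsPrimitiveRoot ζ p) {σ : GQ} {a b : ℕ}
    (ha : IsCycExp p σ a) (hb : IsCycExp p σ b) : (a : ZMod p) = (b : ZMod p) := by
  have h1 := ha ζ hζ.pow_eq_one
  have h2 := hb ζ hζ.pow_eq_one
  rw [h1] at h2
  apply zp_injective hζ
  rw [zp_natCast hζ.pow_eq_one, zp_natCast hζ.pow_eq_one, h2]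

end Zp

section H90

variable {p : ℕ}

/-- **Hilbert 90** for twisted `ZMod p`-valued cocycles of finite level on a subgroup of `G_ℚ`. -/
theorem hilbert90 [NeZero p] {ζ : Qb} (hζ : IsPrimitiveRoot ζ p) (D : Subgroup GQ)
    (f : GQ → ZMod p)
    (hcoc : ∀ σ ∈ D, ∀ τ ∈ D, ∀ a : ℕ, IsCycExp p σ a → f (σ * τ) = f σ + (a : ZMod p) * f τ)
    (hlev : ∃ L : IntermediateField ℚ Qb, FiniteDimensional ℚ L ∧
      ∀ σ ∈ D, ∀ τ ∈ D, (∀ x ∈ L, τ x = x) → f (σ * τ) = f σ) :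
    ∃ β : Qb, β ≠ 0 ∧ ∀ σ ∈ D, σ β = zp ζ (f σ) * β := by
  classical
  have hζ1 : ζ ^ p = 1 := hζ.pow_eq_one
  have hζ0 : ζ ≠ 0 := hζ.ne_zero (NeZero.ne p)
  obtain ⟨L, hL, hlev⟩ := hlev
  let M : IntermediateField ℚ Qb := IntermediateField.normalClosure ℚ L Qb
  haveI : Algebra.IsAlgebraic ℚ Qb := AlgebraicClosure.isAlgebraic ℚ
  haveI : IsAlgClosure ℚ Qb := ⟨inferInstance, inferInstance⟩
  haveI : Normal ℚ Qb := IsAlgClosure.normal ℚ Qb
  haveI : Normal ℚ M := normalClosure.normal ℚ L Qb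
  haveI : FiniteDimensional ℚ M := normalClosure.is_finiteDimensional ℚ L Qb
  have hLM : L ≤ M := IntermediateField.le_normalClosure L
  let r : GQ →* (M ≃ₐ[ℚ] M) := AlgEquiv.restrictNormalHom M
  have hr : ∀ (σ : GQ) (x : M), ((r σ x : M) : Qb) = σ (x : Qb) :=
    fun σ x => AlgEquiv.restrictNormal_commutes σ M x
  let Φ : Subgroup (M ≃ₐ[ℚ] M) := D.map r
  let F : (M ≃ₐ[ℚ] M) → ZMod p := fun g => if h : ∃ σ ∈ D, r σ = g then f h.choose else 0
  have hF : ∀ σ ∈ D, F (r σ) = f σ := by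
    intro σ hσ
    have h : ∃ σ' ∈ D, r σ' = r σ := ⟨σ, hσ, rfl⟩
    simp only [F, dif_pos h]
    obtain ⟨hσ', hrσ'⟩ := h.choose_spec
    have hτD : h.choose⁻¹ * σ ∈ D := D.mul_mem (D.inv_mem hσ') hσ
    have hτfix : ∀ x ∈ L, (h.choose⁻¹ * σ) x = x := by
      intro x hx
      have h1 : σ x = h.choose x := by
        have := congrArg (fun g : M ≃ₐ[ℚ] M => ((g ⟨x, hLM hx⟩ : M) : Qb)) hrσ'
        simp only [hr] at this
        exact this.symm
      rw [AlgEquiv.mul_apply, h1]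
      exact h.choose.symm_apply_apply x
    have := hlev _ hσ' _ hτD hτfix
    rw [mul_inv_cancel_left] at this
    exact this.symm
  let c : (M ≃ₐ[ℚ] M) → Qb := fun g => if g ∈ Φ then zp ζ (-(F g)) else 0
  let β : M → Qb := fun θ => ∑ g : M ≃ₐ[ℚ] M, c g * ((g θ : M) : Qb)
  -- equivariance
  have hc : ∀ σ ∈ D, ∀ g : M ≃ₐ[ℚ] M, σ (c g) = zp ζ (f σ) * c (r σ * g) := by
    intro σ hσ g
    obtain ⟨a, ha⟩ := exists_isCycExp hζ σ
    by_cases hg : g ∈ Φ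
    · obtain ⟨σg, hσg, rfl⟩ := hg
      have hmem : r σ * r σg ∈ Φ := ⟨σ * σg, D.mul_mem hσ hσg, map_mul r σ σg⟩
      have hmem' : r σg ∈ Φ := ⟨σg, hσg, rfl⟩
      simp only [c, if_pos hmem, if_pos hmem']
      rw [← map_mul, hF _ (D.mul_mem hσ hσg), hF _ hσg, hcoc σ hσ σg hσg a ha,
        apply_zp hζ1 ha, ← zp_add hζ1]
      congr 1
      ring
    · have hmem : r σ * g ∉ Φ := by
        intro h
        apply hg
        have h2 : (r σ)⁻¹ ∈ Φ := Φ.inv_mem ⟨σ, hσ, rfl⟩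
        have := Φ.mul_mem h2 h
        rwa [inv_mul_cancel_left] at this
      simp only [c, if_neg hg, if_neg hmem, map_zero, mul_zero]
  have hβ : ∀ σ ∈ D, ∀ θ : M, σ (β θ) = zp ζ (f σ) * β θ := by
    intro σ hσ θ
    simp only [β]
    rw [map_sum, Finset.mul_sum]
    rw [← Equiv.sum_comp (Equiv.mulLeft (r σ))
      (fun g => zp ζ (f σ) * (c g * ((g θ : M) : Qb)))]
    refine Finset.sum_congr rfl fun g _ => ?_
    rw [map_mul, hc σ hσ g, ← hr σ (g θ)]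
    simp only [Equiv.coe_mulLeft, AlgEquiv.mul_apply]
    ring
  -- non-vanishing
  have hne : ∃ θ : M, β θ ≠ 0 := by
    by_contra hall
    push Not at hall
    let m : (M ≃ₐ[ℚ] M) → (M →* Qb) := fun g =>
      ((algebraMap M Qb).comp (g : M →+* M) : M →+* Qb)
    have hm : Function.Injective m := by
      intro g g' h
      ext x
      have := congrArg (fun φ : M →* Qb => φ x) h
      exact this
    have hli : LinearIndependent Qb (fun g : M ≃ₐ[ℚ] M => ((m g : M →* Qb) : M → Qb)) :=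
      (linearIndependent_monoidHom M Qb).comp m hm
    have h0 := Fintype.linearIndependent_iff.mp hli c (by
      funext θ
      have := hall θ
      simp only [β] at this
      simpa [m, Finset.sum_apply, Pi.smul_apply, smul_eq_mul] using this) 1
    have h1 : c 1 = zp ζ (-(F 1)) := by
      simp only [c, if_pos Φ.one_mem]
    rw [h1] at h0
    exact zp_ne_zero hζ0 _ h0
  obtain ⟨θ, hθ⟩ := hne
  exact ⟨β θ, hθ, fun σ hσ => hβ σ hσ θ⟩

end H90

end Fermat.Agent.S56.H786
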