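import Mathlib

/-!
# S56 / LOC-SO, sub-leaf KUMMER-P (helper786), part 1: `ℚ_pˣ` modulo `p`-th powers

For an odd prime `p`, every `a ∈ ℚ_pˣ` is of the form `p ^ i * (1 + p) ^ c * w ^ p`
(`padic_exists_decomp`).  Mathlib only (Hensel's lemma in `ℤ_p`).
-/

set_option autoImplicit false

open Polynomial

namespace Fermat.Agent.S56.H786

section Binomial

variable {R : Type*} [CommRing R]

/-- First order binomial expansion. -/
theorem one_add_pow_first (c : ℕ) (x : R) :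
    ∃ u : R, (1 + x) ^ c = 1 + c * x + x ^ 2 * u := by
  induction c with
  | zero => exact ⟨0, by simp⟩
  | succ c ih =>
    obtain ⟨u, hu⟩ := ih
    refine ⟨c + u + x * u, ?_⟩
    rw [pow_succ, hu]
    push_cast
    ring

/-- Second order binomial expansion for an odd prime exponent. -/
theorem one_add_pow_prime {p : ℕ} (hp : p.Prime) (hp2 : p ≠ 2) (x : R) :
    ∃ u v : R, (1 + x) ^ p = 1 + p * x + p * x ^ 2 * u + x ^ 3 * v := by
  have h3 : 3 ≤ p := by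
    have := hp.two_le
    omega
  obtain ⟨k, rfl⟩ : ∃ k, p = k + 3 := ⟨p - 3, by omega⟩
  obtain ⟨e, he⟩ : (k + 3) ∣ (k + 3).choose 2 :=
    hp.dvd_choose_self (by norm_num) (by omega)
  refine ⟨e, ∑ m ∈ Finset.range (k + 1), x ^ m * ((k + 3).choose (m + 3) : R), ?_⟩
  rw [add_comm 1 x, add_pow]
  rw [Finset.sum_range_succ', Finset.sum_range_succ', Finset.sum_range_succ']
  simp only [one_pow, mul_one, pow_zero, Nat.choose_zero_right, Nat.cast_one, zero_add,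
    pow_one, Nat.choose_one_right]
  rw [he, Finset.mul_sum]
  have : ∀ m ∈ Finset.range (k + 1),
      x ^ (m + 1 + 1 + 1) * (((k + 3).choose (m + 1 + 1 + 1) : ℕ) : R)
        = x ^ 3 * (x ^ m * ((k + 3).choose (m + 3) : R)) := by
    intro m _
    ring
  rw [Finset.sum_congr rfl this]
  push_cast
  ring

end Binomial

section Padic

variable {p : ℕ} [hp : Fact p.Prime]

/-- An element of `ℤ_p` congruent to `1` modulo `p` is a unit. -/
theorem isUnit_of_dvd_sub_one (z : ℤ_[p]) (hz : (p : ℤ_[p]) ∣ z - 1) : IsUnit z := by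
  by_contra h
  have h1 : z ∈ IsLocalRing.maximalIdeal ℤ_[p] := h
  have h2 : z - 1 ∈ IsLocalRing.maximalIdeal ℤ_[p] := by
    rw [PadicInt.maximalIdeal_eq_span_p, Ideal.mem_span_singleton]
    exact hz
  have h3 : (1 : ℤ_[p]) ∈ IsLocalRing.maximalIdeal ℤ_[p] := by
    have h4 := Ideal.sub_mem _ h1 h2
    rwa [sub_sub_cancel] at h4
  exact (Ideal.ne_top_iff_one _).mp (IsLocalRing.maximalIdeal.isMaximal ℤ_[p]).ne_top h3

/-- `z ≡ 1 mod p²` is a `p`-th power in `ℤ_p` (`p` odd). -/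
theorem exists_pow_eq_of_sq_dvd (hp2 : p ≠ 2) (z : ℤ_[p]) (hz : (p : ℤ_[p]) ^ 2 ∣ z - 1) :
    ∃ w : ℤ_[p], w ^ p = z := by
  obtain ⟨s, hs⟩ := hz
  set a : ℤ_[p] := 1 + p * s with ha
  obtain ⟨u, v, huv⟩ := one_add_pow_prime (R := ℤ_[p]) hp.out hp2 (p * s)
  have hF : aeval a (X ^ p - C z : ℤ_[p][X]) = (p : ℤ_[p]) ^ 3 * (s ^ 2 * u + s ^ 3 * v) := by
    simp only [map_sub, map_pow, aeval_X, aeval_C, Algebra.algebraMap_self, RingHom.id_apply]
    rw [ha, huv]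
    have : z = 1 + (p : ℤ_[p]) ^ 2 * s := by rw [← hs]; ring
    rw [this]
    ring
  have hF' : aeval a (derivative (X ^ p - C z : ℤ_[p][X])) = (p : ℤ_[p]) * a ^ (p - 1) := by
    simp only [derivative_sub, derivative_X_pow, derivative_C, sub_zero, map_mul, map_pow,
      aeval_X, map_natCast]
  have hau : IsUnit a := isUnit_of_dvd_sub_one a ⟨s, by rw [ha]; ring⟩
  have hna : ‖a‖ = 1 := PadicInt.isUnit_iff.mp hau
  have hp1 : (1 : ℝ) < p := by exact_mod_cast hp.out.one_lt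
  have hp0 : (0 : ℝ) < p := by linarith
  have hnorm : ‖aeval a (X ^ p - C z : ℤ_[p][X])‖ <
      ‖aeval a (derivative (X ^ p - C z : ℤ_[p][X]))‖ ^ 2 := by
    rw [hF, hF', norm_mul, norm_mul, norm_pow, norm_pow, hna, one_pow, mul_one, PadicInt.norm_p]
    have h1 : ‖s ^ 2 * u + s ^ 3 * v‖ ≤ 1 := PadicInt.norm_le_one _
    have h2 : (0 : ℝ) < (p : ℝ)⁻¹ := inv_pos.mpr hp0
    have h3 : (p : ℝ)⁻¹ < 1 := inv_lt_one_of_one_lt₀ hp1
    calc (p : ℝ)⁻¹ ^ 3 * ‖s ^ 2 * u + s ^ 3 * v‖ ≤ (p : ℝ)⁻¹ ^ 3 * 1 := by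
          apply mul_le_mul_of_nonneg_left h1 (by positivity)
      _ = (p : ℝ)⁻¹ ^ 2 * (p : ℝ)⁻¹ := by ring
      _ < (p : ℝ)⁻¹ ^ 2 * 1 := by
          apply mul_lt_mul_of_pos_left h3 (by positivity)
      _ = (p : ℝ)⁻¹ ^ 2 := by ring
  obtain ⟨w, hw, -⟩ := hensels_lemma hnorm
  refine ⟨w, ?_⟩
  simp only [map_sub, map_pow, aeval_X, aeval_C, Algebra.algebraMap_self, RingHom.id_apply] at hw
  exact sub_eq_zero.mp hw

/-- `z ≡ 1 mod p` is `(1 + p) ^ c` times a `p`-th power in `ℤ_p` (`p` odd). -/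
theorem exists_decomp_of_dvd (hp2 : p ≠ 2) (z : ℤ_[p]) (hz : (p : ℤ_[p]) ∣ z - 1) :
    ∃ (c : ℕ) (w : ℤ_[p]), z = (1 + (p : ℤ_[p])) ^ c * w ^ p := by
  obtain ⟨t, ht⟩ := hz
  obtain ⟨c, -, hc⟩ := PadicInt.exists_mem_range t
  rw [PadicInt.maximalIdeal_eq_span_p, Ideal.mem_span_singleton] at hc
  obtain ⟨t', ht'⟩ := hc
  obtain ⟨u, hu⟩ := one_add_pow_first (R := ℤ_[p]) c (p : ℤ_[p])
  set E : ℤ_[p] := (1 + (p : ℤ_[p])) ^ c with hE
  have hEu : IsUnit E := isUnit_of_dvd_sub_one E ⟨c + p * u, by rw [hu]; ring⟩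
  obtain ⟨E', hE'⟩ := hEu.exists_right_inv
  have hzE : z - E = (p : ℤ_[p]) ^ 2 * (t' - u) := by
    have h1 : z = 1 + p * t := by rw [← ht]; ring
    have h2 : t = c + p * t' := by rw [← ht']; ring
    rw [h1, h2, hu]
    ring
  have hdvd : (p : ℤ_[p]) ^ 2 ∣ z * E' - 1 := by
    refine ⟨(t' - u) * E', ?_⟩
    have : z * E' - 1 = (z - E) * E' := by rw [sub_mul, hE']
    rw [this, hzE]
    ring
  obtain ⟨w, hw⟩ := exists_pow_eq_of_sq_dvd hp2 _ hdvd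
  refine ⟨c, w, ?_⟩
  rw [hw]
  calc z = (E * E') * z := by rw [hE', one_mul]
    _ = E * (z * E') := by ring

/-- Every unit of `ℤ_p` is `(1 + p) ^ c` times a `p`-th power (`p` odd). -/
theorem exists_decomp_of_isUnit (hp2 : p ≠ 2) (u : ℤ_[p]) (hu : IsUnit u) :
    ∃ (c : ℕ) (w : ℤ_[p]), u = (1 + (p : ℤ_[p])) ^ c * w ^ p := by
  have hpos : 0 < p := hp.out.pos
  set y : ℤ_[p] := u ^ (p - 1) with hy
  have hyu : IsUnit y := hu.pow _
  obtain ⟨y', hy'⟩ := hyu.exists_right_inv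
  have hz0 : PadicInt.toZMod u ≠ 0 := by
    intro h0
    have : u ∈ RingHom.ker (PadicInt.toZMod (p := p)) := h0
    rw [PadicInt.ker_toZMod] at this
    exact this hu
  have hy1 : (p : ℤ_[p]) ∣ y - 1 := by
    rw [← Ideal.mem_span_singleton, ← PadicInt.maximalIdeal_eq_span_p, ← PadicInt.ker_toZMod,
      RingHom.mem_ker, map_sub, map_one, hy, map_pow, ZMod.pow_card_sub_one_eq_one hz0, sub_self]
  have hy'1 : (p : ℤ_[p]) ∣ y' - 1 := by
    obtain ⟨t, ht⟩ := hy1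
    refine ⟨-(t * y'), ?_⟩
    have : y' - 1 = -((y - 1) * y') := by rw [sub_mul, hy']; ring
    rw [this, ht]
    ring
  obtain ⟨c, w, hw⟩ := exists_decomp_of_dvd hp2 y' hy'1
  refine ⟨c, u * w, ?_⟩
  have hup : u ^ p = u * y := by
    rw [hy, ← pow_succ']
    congr 1
    omega
  calc u = u * (y * y') := by rw [hy', mul_one]
    _ = u ^ p * y' := by rw [hup]; ring
    _ = (1 + (p : ℤ_[p])) ^ c * (u * w) ^ p := by rw [hw]; ring

/-- **Structure of `ℚ_pˣ` modulo `p`-th powers** (`p` odd): generated by `p` and `1 + p`. -/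
theorem padic_exists_decomp (hp2 : p ≠ 2) (a : ℚ_[p]) (ha : a ≠ 0) :
    ∃ (i : ℤ) (c : ℕ) (w : ℚ_[p]), w ≠ 0 ∧
      a = (p : ℚ_[p]) ^ i * (1 + (p : ℚ_[p])) ^ c * w ^ p := by
  have hp0 : (p : ℚ_[p]) ≠ 0 := by exact_mod_cast hp.out.ne_zero
  have hpR : (p : ℝ) ≠ 0 := by exact_mod_cast hp.out.ne_zero
  set i : ℤ := a.valuation with hi
  have hnorm : ‖a * (p : ℚ_[p]) ^ (-i)‖ = 1 := by
    rw [norm_mul, Padic.norm_p_zpow, Padic.norm_eq_zpow_neg_valuation ha, neg_neg, ← hi,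
      ← zpow_add₀ hpR]
    simp
  set u : ℤ_[p] := ⟨a * (p : ℚ_[p]) ^ (-i), hnorm.le⟩ with hu
  have huu : IsUnit u := PadicInt.isUnit_iff.mpr hnorm
  obtain ⟨c, w, hw⟩ := exists_decomp_of_isUnit hp2 u huu
  have hw0 : w ≠ 0 := by
    rintro rfl
    rw [zero_pow hp.out.ne_zero, mul_zero] at hw
    exact huu.ne_zero hw
  refine ⟨i, c, (w : ℚ_[p]), fun h => hw0 (Subtype.ext h), ?_⟩
  have h1 : (u : ℚ_[p]) = (1 + (p : ℚ_[p])) ^ c * (w : ℚ_[p]) ^ p := by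
    rw [hw]
    push_cast
    rfl
  have h2 : (u : ℚ_[p]) = a * (p : ℚ_[p]) ^ (-i) := rfl
  have h3 : a = (p : ℚ_[p]) ^ i * (u : ℚ_[p]) := by
    rw [h2, mul_comm a, ← mul_assoc, ← zpow_add₀ hp0]
    simp
  rw [h3, h1]
  ring

end Padic

end Fermat.Agent.S56.H786
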