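import Mathlib
import Fermat.Agent.S55.BLocal.Range
import Fermat.Agent.Lib.Cheb.H476.FrobConj
import Fermat.Agent.S56.H786.KummerQp

/-!
# S56 / LOC-SO, sub-leaf KUMMER-P (helper786), part 3: the decomposition field modulo `p`-th powers

`A` a valuation subring of `ℚ̄` over the odd prime `p`.  Every `b ∈ ℚ̄ˣ` fixed by the decomposition
group `D_A` is of the form `p ^ i * (1 + p) ^ c * w ^ p` with `w ∈ ℚ̄ˣ` fixed by `D_A`
(`fixed_exists_decomp`).  Proof: `G_ℚ` is transitive on the valuation subrings over `p`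
(landed `Lib/Cheb/H476`), for the `p`-adic place the fixed field of `D_A` is `ℚ̄ ∩ ℚ_p`
(landed `S55/BLocal`), and `ℚ_pˣ / (ℚ_pˣ)^p` is generated by `p`, `1 + p` (`KummerQp.lean`).
-/

set_option autoImplicit false
set_option linter.style.haveILetI false

open scoped Pointwise

namespace Fermat.Agent.S56.H786

open Fermat.Agent.S55.BLocal

section

variable (p : ℕ) [hp : Fact p.Prime]

/-- The `p`-adic place lies over `p`. -/
theorem padicPlace_liesOver786 : (padicPlace p).LiesOverPrime p := by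
  show ((p : ℕ) : Qb) ∈ (padicPlace p).nonunits
  rw [ValuationSubring.mem_nonunits_iff_exists_mem_maximalIdeal]
  have hq1 : (1 : ℝ) < (p : ℕ) := by exact_mod_cast hp.out.one_lt
  have hlt : qnorm p ((p : ℕ) : Qb) < 1 := by
    rw [qnorm_natCast_self]
    exact inv_lt_one_of_one_lt₀ hq1
  have hmem : ((p : ℕ) : Qb) ∈ padicPlace p :=
    (mem_padicPlace_iff_qnorm p _).mpr hlt.le
  refine ⟨hmem, ?_⟩
  rw [IsLocalRing.mem_maximalIdeal, mem_nonunits_iff]
  intro hu
  obtain ⟨u, hu⟩ := hu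
  have hinv : (((u⁻¹ : (padicPlace p)ˣ) : padicPlace p) : Qb) * ((p : ℕ) : Qb) = 1 := by
    have h1 : ((u⁻¹ : (padicPlace p)ˣ) : padicPlace p) * (u : padicPlace p) = 1 :=
      Units.inv_mul u
    rw [hu] at h1
    exact congrArg Subtype.val h1
  have h2 := congrArg (qnorm p) hinv
  rw [qnorm_mul] at h2
  have h3 : qnorm p (1 : Qb) = 1 := by
    unfold qnorm
    rw [map_one, norm_one]
  rw [h3] at h2
  have h4 : qnorm p (((u⁻¹ : (padicPlace p)ˣ) : padicPlace p) : Qb) ≤ 1 :=
    (mem_padicPlace_iff_qnorm p _).mp (Subtype.property _)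
  have h5 := qnorm_nonneg p ((p : ℕ) : Qb)
  nlinarith

/-- Elements of `ℚ̄_p` algebraic over `ℚ` are in the image of `padicEmbedding p`. -/
theorem mem_range_padicEmbedding786 (b : PadicAlgCl p) (hb : IsIntegral ℚ b) :
    ∃ b' : Qb, padicEmbedding p b' = b := by
  set g : Polynomial ℚ := minpoly ℚ b with hg
  have hg0 : g ≠ 0 := minpoly.ne_zero hb
  have hsplit : (g.map (algebraMap ℚ Qb)).Splits := IsAlgClosed.splits _
  have hmap : (g.map (algebraMap ℚ Qb)).map
      ((padicEmbedding p : Qb →ₐ[ℚ] PadicAlgCl p) : Qb →+* PadicAlgCl p)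
      = g.map (algebraMap ℚ (PadicAlgCl p)) := by
    rw [Polynomial.map_map]
    congr 1
    exact (padicEmbedding p).comp_algebraMap
  have hroot : b ∈ (g.map (algebraMap ℚ (PadicAlgCl p))).roots := by
    rw [Polynomial.mem_roots (Polynomial.map_ne_zero hg0), Polynomial.IsRoot.def,
      Polynomial.eval_map_algebraMap]
    exact minpoly.aeval ℚ b
  rw [← hmap, hsplit.roots_map, Multiset.mem_map] at hroot
  obtain ⟨b', -, hb'⟩ := hroot
  exact ⟨b', hb'⟩

/-- The case of the `p`-adic place. -/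
theorem fixed_exists_decomp_padicPlace (hp2 : p ≠ 2) (b : Qb) (hb0 : b ≠ 0)
    (hb : ∀ σ ∈ (padicPlace p).decompositionSubgroup ℚ, σ b = b) :
    ∃ (i : ℤ) (c : ℕ) (w : Qb), w ≠ 0 ∧
      (∀ σ ∈ (padicPlace p).decompositionSubgroup ℚ, σ w = w) ∧
      b = (p : Qb) ^ i * (1 + (p : Qb)) ^ c * w ^ p := by
  have hinj : Function.Injective (padicEmbedding p) := (padicEmbedding p).toRingHom.injective
  obtain ⟨a, ha⟩ := padicEmbedding_mem_range_of_fixed p b
    (fun τ => hb _ (localGaloisToGlobal_mem_decompositionSubgroup p τ))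
  have ha0 : a ≠ 0 := by
    rintro rfl
    rw [map_zero] at ha
    exact hb0 (hinj (by rw [ha, map_zero]))
  obtain ⟨i, c, w, hw0, hw⟩ := padic_exists_decomp hp2 a ha0
  have hp0 : (p : Qb) ≠ 0 := by exact_mod_cast hp.out.ne_zero
  have h1p : (1 + (p : Qb)) ≠ 0 := by
    have : (1 + (p : Qb)) = ((1 + p : ℕ) : Qb) := by push_cast; ring
    rw [this]
    exact_mod_cast (by omega : 1 + p ≠ 0)
  -- the element `b' = b / (p ^ i (1+p) ^ c)` of `ℚ̄` maps to `w ^ p`
  set b' : Qb := b * ((p : Qb) ^ i * (1 + (p : Qb)) ^ c)⁻¹ with hb'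
  have hιb' : padicEmbedding p b' = (algebraMap ℚ_[p] (PadicAlgCl p) w) ^ p := by
    rw [hb', map_mul, map_inv₀, map_mul, map_zpow₀, map_pow, map_add, map_one, map_natCast, ha,
      hw]
    simp only [map_mul, map_zpow₀, map_pow, map_add, map_one, map_natCast]
    have e1 : ((p : PadicAlgCl p)) ≠ 0 := by exact_mod_cast hp.out.ne_zero
    have e2 : (1 + (p : PadicAlgCl p)) ≠ 0 := by
      have : (1 + (p : PadicAlgCl p)) = ((1 + p : ℕ) : PadicAlgCl p) := by push_cast; ring
      rw [this]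
      exact_mod_cast (by omega : 1 + p ≠ 0)
    field_simp
  have hint : IsIntegral ℚ (algebraMap ℚ_[p] (PadicAlgCl p) w) := by
    apply IsIntegral.of_pow hp.out.pos
    rw [← hιb']
    have : IsIntegral ℚ b' := (AlgebraicClosure.isAlgebraic ℚ).isIntegral.isIntegral b'
    exact this.map (padicEmbedding p)
  obtain ⟨w₀, hw₀⟩ := mem_range_padicEmbedding786 p _ hint
  refine ⟨i, c, w₀, ?_, ?_, ?_⟩
  · rintro rfl
    rw [map_zero] at hw₀
    exact hw0 ((algebraMap ℚ_[p] (PadicAlgCl p)).injective (by rw [← hw₀, map_zero]))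
  · intro σ hσ
    exact apply_eq_of_padicEmbedding_mem_range p σ hσ w₀ w hw₀
  · have h2 : b' = w₀ ^ p := hinj (by rw [hιb', map_pow, hw₀])
    rw [← h2, hb']
    field_simp

/-- **The decomposition field modulo `p`-th powers**: every nonzero `b` fixed by `D_A` is
`p ^ i * (1 + p) ^ c * w ^ p` with `w` fixed by `D_A`. -/
theorem fixed_exists_decomp (hp2 : p ≠ 2) (A : ValuationSubring Qb) (hA : A.LiesOverPrime p)
    (b : Qb) (hb0 : b ≠ 0) (hb : ∀ σ ∈ A.decompositionSubgroup ℚ, σ b = b) :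
    ∃ (i : ℤ) (c : ℕ) (w : Qb), w ≠ 0 ∧ (∀ σ ∈ A.decompositionSubgroup ℚ, σ w = w) ∧
      b = (p : Qb) ^ i * (1 + (p : Qb)) ^ c * w ^ p := by
  obtain ⟨g, hg⟩ := Fermat.Agent.Lib.Cheb.H476.exists_smul_eq hp.out
    (padicPlace_liesOver786 p) hA
  -- conjugation of decomposition groups
  have hconj : ∀ σ : GQ, σ ∈ (padicPlace p).decompositionSubgroup ℚ →
      g * σ * g⁻¹ ∈ A.decompositionSubgroup ℚ := by
    intro σ hσ
    have h1 : σ • padicPlace p = padicPlace p := hσ
    show (g * σ * g⁻¹) • A = A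
    rw [← hg, mul_smul, mul_smul, inv_smul_smul, h1]
  have hconj' : ∀ σ : GQ, σ ∈ A.decompositionSubgroup ℚ →
      g⁻¹ * σ * g ∈ (padicPlace p).decompositionSubgroup ℚ := by
    intro σ hσ
    have h1 : σ • A = A := hσ
    show (g⁻¹ * σ * g) • padicPlace p = padicPlace p
    rw [mul_smul, mul_smul, hg, h1, ← hg, inv_smul_smul]
  have hb' : ∀ σ ∈ (padicPlace p).decompositionSubgroup ℚ, σ (g⁻¹ b) = g⁻¹ b := by
    intro σ hσ
    have := hb _ (hconj σ hσ)
    have h2 : (g * σ * g⁻¹) b = g (σ (g⁻¹ b)) := rfl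
    rw [h2] at this
    have h3 := congrArg (fun x => g⁻¹ x) this
    simpa using h3
  have hb0' : g⁻¹ b ≠ 0 := by
    intro h
    apply hb0
    have := congrArg (fun x => g x) h
    simpa using this
  obtain ⟨i, c, w, hw0, hw, hbw⟩ := fixed_exists_decomp_padicPlace p hp2 (g⁻¹ b) hb0' hb'
  refine ⟨i, c, g w, ?_, ?_, ?_⟩
  · intro h
    apply hw0
    exact (map_eq_zero_iff g g.injective).mp h
  · intro σ hσ
    have := hw _ (hconj' σ hσ)
    have h2 : (g⁻¹ * σ * g) w = g⁻¹ (σ (g w)) := rfl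
    rw [h2] at this
    have h3 := congrArg (fun x => g x) this
    simpa using h3
  · have := congrArg (fun x => g x) hbw
    simp only [map_mul, map_zpow₀, map_pow, map_add, map_one, map_natCast] at this
    rw [← this]
    simp

end

end Fermat.Agent.S56.H786
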