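import Fermat.Agent.S56.H786.KummerH90
import Fermat.Agent.S56.H786.KummerFixed

/-!
# S56 / LOC-SO, sub-leaf KUMMER-P (helper786): `dim H¹(D_P, k(1)) ≤ 2`

`p` an odd prime, `P` a valuation subring of `ℚ̄` over `p`, `D_P` its decomposition group,
`k` a finite field of characteristic `p`.  Fix a primitive `p`-th root of unity `ζ` and `p`-th roots
`π₁` of `p` and `π₂` of `1 + p` in `ℚ̄`, with GLOBAL Kummer functions
`κ_j = kum p ζ π_j : G_ℚ → ZMod p`, `σ π_j = ζ ^ κ_j(σ) · π_j`.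

* `kummer_zmod`  : every twisted cocycle `f : G_ℚ → ZMod p` on `D_P` of finite level
  (`f(στ) = f(σ) + a f(τ)` for `σ, τ ∈ D_P`, `a` a cyclotomic exponent of `σ`) is
  `f = x κ₁ + y κ₂ + (a − 1) m` on `D_P`;
* `kummer_field` : the same for `k`-valued cocycles;
* `kummerP`      : packaged existence statement (`κ₁, κ₂` are global twisted cocycles of finite
  level, independent of `P` and `k`).

So `H¹(D_P, k(1))` is spanned by the Kummer classes of `p` and `1 + p`.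
-/

set_option autoImplicit false
set_option linter.style.haveILetI false

namespace Fermat.Agent.S56.H786

open Fermat.Agent.S56

section Zp2

variable {p : ℕ}

theorem zp_neg [NeZero p] {ζ : Qb} (h1 : ζ ^ p = 1) (n : ZMod p) :
    zp ζ (-n) = (zp ζ n)⁻¹ :=
  eq_inv_of_mul_eq_one_left (zp_neg_mul_self h1 n)

theorem zp_intCast_mul [NeZero p] {ζ : Qb} (h1 : ζ ^ p = 1) (i : ℤ) (n : ZMod p) :
    zp ζ ((i : ZMod p) * n) = zp ζ n ^ i := by
  cases i with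
  | ofNat k =>
    rw [Int.ofNat_eq_natCast, Int.cast_natCast, zpow_natCast]
    exact zp_natCast_mul h1 k n
  | negSucc k =>
    rw [Int.cast_negSucc, zpow_negSucc, neg_mul, zp_neg h1, zp_natCast_mul h1]

end Zp2

section Kum

variable {p : ℕ}

open Classical in
/-- The Kummer function of `π` with respect to `ζ`: `σ π = ζ ^ (kum σ) · π`. -/
noncomputable def kum (p : ℕ) (ζ π : Qb) (σ : GQ) : ZMod p :=
  if h : ∃ n : ZMod p, σ π = zp ζ n * π then h.choose else 0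

theorem kum_spec [NeZero p] {ζ : Qb} (hζ : IsPrimitiveRoot ζ p) {π : Qb} (hπ : π ≠ 0) (σ : GQ)
    (h : σ (π ^ p) = π ^ p) : σ π = zp ζ (kum p ζ π σ) * π := by
  have hex : ∃ n : ZMod p, σ π = zp ζ n * π := by
    have h1 : (σ π / π) ^ p = 1 := by
      rw [div_pow, ← map_pow, h, div_self (pow_ne_zero _ hπ)]
    obtain ⟨n, hn⟩ := exists_zp_eq hζ h1
    exact ⟨n, by rw [← hn, div_mul_cancel₀ _ hπ]⟩
  unfold kum
  rw [dif_pos hex]
  exact hex.choose_spec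

/-- The Kummer function of a `p`-th root of a rational number is a global twisted cocycle. -/
theorem kum_mul [NeZero p] {ζ : Qb} (hζ : IsPrimitiveRoot ζ p) {π : Qb} (hπ : π ≠ 0)
    (hrat : ∀ σ : GQ, σ (π ^ p) = π ^ p) (σ τ : GQ) (a : ℕ) (ha : IsCycExp p σ a) :
    kum p ζ π (σ * τ) = kum p ζ π σ + (a : ZMod p) * kum p ζ π τ := by
  have h1 := hζ.pow_eq_one
  apply zp_injective hζ
  have e1 := kum_spec hζ hπ (σ * τ) (hrat _)
  have e2 := kum_spec hζ hπ σ (hrat _)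
  have e3 := kum_spec hζ hπ τ (hrat _)
  have e4 : (σ * τ) π = σ (τ π) := rfl
  rw [e4, e3, map_mul, e2, apply_zp h1 ha] at e1
  have e5 : zp ζ (kum p ζ π (σ * τ)) * π
      = zp ζ (kum p ζ π σ + (a : ZMod p) * kum p ζ π τ) * π := by
    rw [← e1, zp_add h1]
    ring
  exact mul_right_cancel₀ hπ e5

/-- The Kummer function has finite level. -/
theorem kum_level [NeZero p] {ζ : Qb} (hζ : IsPrimitiveRoot ζ p) {π : Qb} (hπ : π ≠ 0)
    (hrat : ∀ σ : GQ, σ (π ^ p) = π ^ p) :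
    ∃ L : IntermediateField ℚ Qb, FiniteDimensional ℚ L ∧
      ∀ σ τ : GQ, (∀ x ∈ L, τ x = x) → kum p ζ π (σ * τ) = kum p ζ π σ := by
  have hint : IsIntegral ℚ π := (AlgebraicClosure.isAlgebraic ℚ).isIntegral.isIntegral π
  refine ⟨IntermediateField.adjoin ℚ {π}, IntermediateField.adjoin.finiteDimensional hint,
    fun σ τ hτ => ?_⟩
  apply zp_injective hζ
  have e1 := kum_spec hζ hπ (σ * τ) (hrat _)
  have e2 := kum_spec hζ hπ σ (hrat _)
  have e4 : (σ * τ) π = σ (τ π) := rfl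
  rw [e4, hτ π (IntermediateField.mem_adjoin_simple_self ℚ π), e2] at e1
  exact (mul_right_cancel₀ hπ e1).symm

end Kum

section Main

variable {p : ℕ} [hp : Fact p.Prime]

/-- **Kummer count, `ZMod p`-valued cocycles.** -/
theorem kummer_zmod (hp2 : p ≠ 2) {ζ : Qb} (hζ : IsPrimitiveRoot ζ p)
    {π₁ π₂ : Qb} (h1 : π₁ ^ p = (p : Qb)) (h2 : π₂ ^ p = 1 + (p : Qb))
    (A : ValuationSubring Qb) (hA : A.LiesOverPrime p) (f : GQ → ZMod p)
    (hcoc : ∀ σ ∈ A.decompositionSubgroup ℚ, ∀ τ ∈ A.decompositionSubgroup ℚ, ∀ a : ℕ,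
      IsCycExp p σ a → f (σ * τ) = f σ + (a : ZMod p) * f τ)
    (hlev : ∃ L : IntermediateField ℚ Qb, FiniteDimensional ℚ L ∧
      ∀ σ ∈ A.decompositionSubgroup ℚ, ∀ τ ∈ A.decompositionSubgroup ℚ,
        (∀ x ∈ L, τ x = x) → f (σ * τ) = f σ) :
    ∃ x y m : ZMod p, ∀ σ ∈ A.decompositionSubgroup ℚ, ∀ a, IsCycExp p σ a →
      f σ = x * kum p ζ π₁ σ + y * kum p ζ π₂ σ + ((a : ZMod p) - 1) * m := by
  haveI : NeZero p := ⟨hp.out.ne_zero⟩
  have hζ1 := hζ.pow_eq_one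
  have hζ0 : ζ ≠ 0 := hζ.ne_zero (NeZero.ne p)
  have hp0 : (p : Qb) ≠ 0 := by exact_mod_cast hp.out.ne_zero
  have h1p : (1 + (p : Qb)) ≠ 0 := by
    have : (1 + (p : Qb)) = ((1 + p : ℕ) : Qb) := by push_cast; ring
    rw [this]
    exact_mod_cast (by omega : 1 + p ≠ 0)
  have hπ₁ : π₁ ≠ 0 := by
    rintro rfl
    rw [zero_pow hp.out.ne_zero] at h1
    exact hp0 h1.symm
  have hπ₂ : π₂ ≠ 0 := by
    rintro rfl
    rw [zero_pow hp.out.ne_zero] at h2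
    exact h1p h2.symm
  have hrat₁ : ∀ σ : GQ, σ (π₁ ^ p) = π₁ ^ p := fun σ => by rw [h1, map_natCast]
  have hrat₂ : ∀ σ : GQ, σ (π₂ ^ p) = π₂ ^ p := fun σ => by
    rw [h2, map_add, map_one, map_natCast]
  obtain ⟨β, hβ0, hβ⟩ := hilbert90 hζ (A.decompositionSubgroup ℚ) f hcoc hlev
  have hb : ∀ σ ∈ A.decompositionSubgroup ℚ, σ (β ^ p) = β ^ p := by
    intro σ hσ
    rw [map_pow, hβ σ hσ, mul_pow, zp_pow_self hζ1, one_mul]
  obtain ⟨i, c, w, hw0, hw, hbw⟩ :=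
    fixed_exists_decomp p hp2 A hA (β ^ p) (pow_ne_zero _ hβ0) hb
  set β₀ : Qb := π₁ ^ i * π₂ ^ c * w with hβ₀
  have hβ₀0 : β₀ ≠ 0 := mul_ne_zero (mul_ne_zero (zpow_ne_zero _ hπ₁) (pow_ne_zero _ hπ₂)) hw0
  have hβ₀p : β₀ ^ p = β ^ p := by
    rw [hbw, hβ₀, mul_pow, mul_pow, ← h2, ← h1]
    congr 2
    · rw [← zpow_natCast, ← zpow_natCast, ← zpow_mul, ← zpow_mul, mul_comm]
    · rw [← pow_mul, ← pow_mul, mul_comm]
  obtain ⟨m, hm⟩ : ∃ m : ZMod p, β / β₀ = zp ζ m :=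
    exists_zp_eq hζ (by rw [div_pow, hβ₀p, div_self (pow_ne_zero _ hβ0)])
  have hββ₀ : β = zp ζ m * β₀ := by rw [← hm, div_mul_cancel₀ _ hβ₀0]
  refine ⟨(i : ZMod p), (c : ZMod p), m, fun σ hσ a ha => ?_⟩
  have e1 := kum_spec hζ hπ₁ σ (hrat₁ σ)
  have e2 := kum_spec hζ hπ₂ σ (hrat₂ σ)
  have e3 : σ β₀ = zp ζ ((i : ZMod p) * kum p ζ π₁ σ) * zp ζ ((c : ZMod p) * kum p ζ π₂ σ)
      * β₀ := by
    rw [hβ₀, map_mul, map_mul, map_zpow₀, map_pow, e1, e2, hw σ hσ, mul_zpow, mul_pow,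
      zp_intCast_mul hζ1, zp_natCast_mul hζ1]
    ring
  have e4 : σ β = zp ζ (f σ) * β := hβ σ hσ
  rw [hββ₀, map_mul, apply_zp hζ1 ha, e3] at e4
  have e5 : zp ζ ((a : ZMod p) * m + (i : ZMod p) * kum p ζ π₁ σ
      + (c : ZMod p) * kum p ζ π₂ σ) * β₀ = zp ζ (f σ + m) * β₀ := by
    rw [zp_add hζ1, zp_add hζ1, zp_add hζ1]
    linear_combination e4
  have e6 := zp_injective hζ (mul_right_cancel₀ hβ₀0 e5)
  linear_combination -e6

/-- **Kummer count, cocycles with values in a finite field of characteristic `p`.** -/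
theorem kummer_field (hp2 : p ≠ 2) {ζ : Qb} (hζ : IsPrimitiveRoot ζ p)
    {π₁ π₂ : Qb} (h1 : π₁ ^ p = (p : Qb)) (h2 : π₂ ^ p = 1 + (p : Qb))
    (k : Type*) [Field k] [CharP k p] [Finite k]
    (A : ValuationSubring Qb) (hA : A.LiesOverPrime p) (f : GQ → k)
    (hcoc : ∀ σ ∈ A.decompositionSubgroup ℚ, ∀ τ ∈ A.decompositionSubgroup ℚ, ∀ a,
      IsCycExp p σ a → f (σ * τ) = f σ + (a : k) * f τ)
    (hlev : ∃ L : IntermediateField ℚ Qb, FiniteDimensional ℚ L ∧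
      ∀ σ ∈ A.decompositionSubgroup ℚ, ∀ τ ∈ A.decompositionSubgroup ℚ,
        (∀ x ∈ L, τ x = x) → f (σ * τ) = f σ) :
    ∃ x y m : k, ∀ σ ∈ A.decompositionSubgroup ℚ, ∀ a, IsCycExp p σ a →
      f σ = x * (ZMod.castHom (dvd_refl p) k (kum p ζ π₁ σ))
        + y * (ZMod.castHom (dvd_refl p) k (kum p ζ π₂ σ)) + ((a : k) - 1) * m := by
  classical
  letI : Algebra (ZMod p) k := ZMod.algebra k p
  haveI : Module.Finite (ZMod p) k := Module.Finite.of_finite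
  let B := Module.finBasis (ZMod p) k
  have hsmul : ∀ (n : ZMod p) (y : k), n • y = (ZMod.castHom (dvd_refl p) k n) * y := by
    intro n y
    rw [Algebra.smul_def]
    rfl
  have hnat : ∀ (a : ℕ) (y : k), (a : k) * y = (a : ZMod p) • y := by
    intro a y
    rw [hsmul, map_natCast]
  -- coordinates
  have hcoord : ∀ j, ∃ x y m : ZMod p, ∀ σ ∈ A.decompositionSubgroup ℚ, ∀ a, IsCycExp p σ a →
      B.coord j (f σ) = x * kum p ζ π₁ σ + y * kum p ζ π₂ σ + ((a : ZMod p) - 1) * m := by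
    intro j
    refine kummer_zmod hp2 hζ h1 h2 A hA (fun σ => B.coord j (f σ)) ?_ ?_
    · intro σ hσ τ hτ a ha
      show B.coord j (f (σ * τ)) = B.coord j (f σ) + (a : ZMod p) * B.coord j (f τ)
      rw [hcoc σ hσ τ hτ a ha, map_add, hnat, map_smul, smul_eq_mul]
    · obtain ⟨L, hL, hlev⟩ := hlev
      exact ⟨L, hL, fun σ hσ τ hτ hfix => by
        show B.coord j (f (σ * τ)) = B.coord j (f σ)
        rw [hlev σ hσ τ hτ hfix]⟩
  choose x y m hxym using hcoord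
  refine ⟨∑ j, x j • B j, ∑ j, y j • B j, ∑ j, m j • B j, fun σ hσ a ha => ?_⟩
  have hf : f σ = ∑ j, B.coord j (f σ) • B j := (B.sum_repr (f σ)).symm
  rw [hf]
  have hterm : ∀ j, B.coord j (f σ) • B j
      = (x j • B j) * (ZMod.castHom (dvd_refl p) k (kum p ζ π₁ σ))
        + (y j • B j) * (ZMod.castHom (dvd_refl p) k (kum p ζ π₂ σ))
        + ((a : k) - 1) * (m j • B j) := by
    intro j
    rw [hxym j σ hσ a ha, hsmul, hsmul, hsmul, hsmul]
    simp only [map_add, map_mul, map_sub, map_natCast, map_one]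
    ring
  rw [Finset.sum_congr rfl (fun j _ => hterm j), Finset.sum_add_distrib, Finset.sum_add_distrib,
    ← Finset.sum_mul, ← Finset.sum_mul, ← Finset.mul_sum]

/-- **KUMMER-P**: there are two global Kummer cocycles `κ₁, κ₂ : G_ℚ → ZMod p` (those of `p` and
`1 + p`) such that for every valuation subring `P` of `ℚ̄` over `p` and every finite field `k` of
characteristic `p`, every twisted `k`-valued cocycle of finite level on `D_P` is a `k`-linear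
combination of `κ₁, κ₂` modulo coboundaries.  In particular `dim_k H¹(D_P, k(1)) ≤ 2`. -/
theorem kummerP (p : ℕ) (hp : p.Prime) (hp2 : p ≠ 2) :
    ∃ κ₁ κ₂ : GQ → ZMod p,
      (∀ σ τ : GQ, ∀ a : ℕ, IsCycExp p σ a → κ₁ (σ * τ) = κ₁ σ + (a : ZMod p) * κ₁ τ) ∧
      (∀ σ τ : GQ, ∀ a : ℕ, IsCycExp p σ a → κ₂ (σ * τ) = κ₂ σ + (a : ZMod p) * κ₂ τ) ∧
      (∃ L : IntermediateField ℚ Qb, FiniteDimensional ℚ L ∧
        ∀ σ τ : GQ, (∀ x ∈ L, τ x = x) → κ₁ (σ * τ) = κ₁ σ) ∧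
      (∃ L : IntermediateField ℚ Qb, FiniteDimensional ℚ L ∧
        ∀ σ τ : GQ, (∀ x ∈ L, τ x = x) → κ₂ (σ * τ) = κ₂ σ) ∧
      ∀ (k : Type) [Field k] [CharP k p] [Finite k]
        (P : ValuationSubring Qb), P.LiesOverPrime p → ∀ f : GQ → k,
        (∀ σ ∈ P.decompositionSubgroup ℚ, ∀ τ ∈ P.decompositionSubgroup ℚ, ∀ a,
          IsCycExp p σ a → f (σ * τ) = f σ + (a : k) * f τ) →
        (∃ L : IntermediateField ℚ Qb, FiniteDimensional ℚ L ∧
          ∀ σ ∈ P.decompositionSubgroup ℚ, ∀ τ ∈ P.decompositionSubgroup ℚ,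
            (∀ x ∈ L, τ x = x) → f (σ * τ) = f σ) →
        ∃ x y m : k, ∀ σ ∈ P.decompositionSubgroup ℚ, ∀ a, IsCycExp p σ a →
          f σ = x * (ZMod.castHom (dvd_refl p) k (κ₁ σ))
            + y * (ZMod.castHom (dvd_refl p) k (κ₂ σ)) + ((a : k) - 1) * m := by
  haveI : Fact p.Prime := ⟨hp⟩
  haveI : NeZero p := ⟨hp.ne_zero⟩
  haveI : NeZero ((p : ℕ) : Qb) := ⟨by exact_mod_cast hp.ne_zero⟩
  obtain ⟨ζ, hζ⟩ := HasEnoughRootsOfUnity.exists_primitiveRoot Qb p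
  obtain ⟨π₁, h1⟩ := IsAlgClosed.exists_pow_nat_eq (p : Qb) hp.pos
  obtain ⟨π₂, h2⟩ := IsAlgClosed.exists_pow_nat_eq (1 + (p : Qb)) hp.pos
  have hp0 : (p : Qb) ≠ 0 := by exact_mod_cast hp.ne_zero
  have h1p : (1 + (p : Qb)) ≠ 0 := by
    have : (1 + (p : Qb)) = ((1 + p : ℕ) : Qb) := by push_cast; ring
    rw [this]
    exact_mod_cast (by omega : 1 + p ≠ 0)
  have hπ₁ : π₁ ≠ 0 := by
    rintro rfl
    rw [zero_pow hp.ne_zero] at h1
    exact hp0 h1.symm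
  have hπ₂ : π₂ ≠ 0 := by
    rintro rfl
    rw [zero_pow hp.ne_zero] at h2
    exact h1p h2.symm
  have hrat₁ : ∀ σ : GQ, σ (π₁ ^ p) = π₁ ^ p := fun σ => by rw [h1, map_natCast]
  have hrat₂ : ∀ σ : GQ, σ (π₂ ^ p) = π₂ ^ p := fun σ => by
    rw [h2, map_add, map_one, map_natCast]
  refine ⟨kum p ζ π₁, kum p ζ π₂, fun σ τ a ha => kum_mul hζ hπ₁ hrat₁ σ τ a ha,
    fun σ τ a ha => kum_mul hζ hπ₂ hrat₂ σ τ a ha, kum_level hζ hπ₁ hrat₁,
    kum_level hζ hπ₂ hrat₂, ?_⟩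
  intro k _ _ _ P hP f hcoc hlev
  exact kummer_field hp2 hζ h1 h2 k P hP f hcoc hlev

end Main

end Fermat.Agent.S56.H786
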